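import Mathlib

/-!
# S16 / LB : abstract Weil-representation lemma (helper487)

Abstract input: a finite abelian group `D` of order `p^2`, an even quadratic function
`Q : D → ZMod p` with non-degenerate polar form `B`, a non-trivial additive character `ψ` of
`ZMod p`, and a family of functions `Θ : D → ℍ → ℂ` satisfying the two transformation laws

* `(T)`  `Θ h ∣[2] T = ψ (Q h) • Θ h`
* `(S)`  `Θ h ∣[2] S = -(1/p) • ∑ k, ψ (B h k) • Θ k`

and `Θ 0 ≠ 0`.  Output: the Gauss sums `∑ k, ψ (u * Q k)` equal `-p` for `u ≠ 0`, the function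
`Θ 0` is invariant under `Γ₀(p)`, every `SL(2,ℤ)`-translate of `Θ 0` is an explicit linear
combination of the `Θ k`, and (given holomorphy and boundedness at `i∞` of all `Θ k`) `Θ 0` is a
modular form of weight `2` on `Γ₀(p)`.
-/

set_option autoImplicit false

namespace Fermat.Agent.S16.H487

open UpperHalfPlane ModularForm Matrix.SpecialLinearGroup
open scoped MatrixGroups ModularForm Manifold

noncomputable section

/-- The hypotheses of the abstract Weil-representation lemma. -/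
structure IsThetaSystem (p : ℕ) [Fact p.Prime] {D : Type} [AddCommGroup D] [Fintype D]
    (ψ : AddChar (ZMod p) ℂ) (Q : D → ZMod p) (B : D → D → ZMod p) (Θ : D → ℍ → ℂ) : Prop where
  psi_ne_one : ψ ≠ 1
  card_eq : Fintype.card D = p ^ 2
  Q_neg : ∀ h, Q (-h) = Q h
  Q_add : ∀ h k, Q (h + k) = Q h + Q k + B h k
  B_add_left : ∀ h h' k, B (h + h') k = B h k + B h' k
  B_symm : ∀ h k, B h k = B k h
  B_nondeg : ∀ j, j ≠ 0 → ∃ k, B k j ≠ 0
  slash_T : ∀ h, Θ h ∣[(2 : ℤ)] ModularGroup.T = ψ (Q h) • Θ h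
  slash_S : ∀ h, Θ h ∣[(2 : ℤ)] ModularGroup.S = (-(p : ℂ)⁻¹) • ∑ k, ψ (B h k) • Θ k
  theta_zero_ne : Θ 0 ≠ 0

namespace IsThetaSystem

variable {p : ℕ} [Fact p.Prime] {D : Type} [AddCommGroup D] [Fintype D]
  {ψ : AddChar (ZMod p) ℂ} {Q : D → ZMod p} {B : D → D → ZMod p} {Θ : D → ℍ → ℂ}

section algebra

variable (H : IsThetaSystem p ψ Q B Θ)
include H

theorem B_zero_left (k : D) : B 0 k = 0 := by
  have := H.B_add_left 0 0 k
  rw [add_zero] at this
  exact left_eq_add.mp this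

theorem B_zero_right (k : D) : B k 0 = 0 := by rw [H.B_symm, H.B_zero_left]

theorem B_add_right (h k k' : D) : B h (k + k') = B h k + B h k' := by
  rw [H.B_symm, H.B_add_left, H.B_symm k h, H.B_symm k' h]

theorem Q_zero : Q 0 = 0 := by
  have := H.Q_add 0 0
  rw [add_zero, H.B_zero_left] at this
  have h2 : Q 0 + Q 0 = Q 0 := by simpa using this.symm
  exact add_eq_right.mp h2

theorem B_neg_left (h k : D) : B (-h) k = -B h k := by
  have := H.B_add_left h (-h) k
  rw [add_neg_cancel, H.B_zero_left] at this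
  exact eq_neg_of_add_eq_zero_right this.symm

theorem B_neg_right (h k : D) : B h (-k) = -B h k := by
  rw [H.B_symm, H.B_neg_left, H.B_symm]

theorem B_self (h : D) : B h h = 2 * Q h := by
  have := H.Q_add h (-h)
  rw [add_neg_cancel, H.Q_zero, H.Q_neg, H.B_neg_right] at this
  linear_combination this

theorem B_nsmul_right (n : ℕ) (h k : D) : B h (n • k) = n * B h k := by
  induction n with
  | zero => simp [H.B_zero_right]
  | succ n ih => rw [succ_nsmul, H.B_add_right, ih]; push_cast; ring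

theorem Q_nsmul (n : ℕ) (h : D) : Q (n • h) = (n : ZMod p) ^ 2 * Q h := by
  induction n with
  | zero => simp [H.Q_zero]
  | succ n ih =>
    rw [succ_nsmul, H.Q_add, ih, H.B_symm, H.B_nsmul_right, H.B_self]; push_cast; ring

/-- Completing the square. -/
theorem complete_square {u : ZMod p} (hu : u ≠ 0) (k j : D) :
    u * Q k + B k j = u * Q (k + (u⁻¹).val • j) - u⁻¹ * Q j := by
  rw [H.Q_add, H.Q_nsmul, H.B_nsmul_right, ZMod.natCast_zmod_val]
  field_simp
  ring

/-- `D` is killed by `p`. -/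
theorem p_nsmul (k : D) : p • k = 0 := by
  by_contra hne
  obtain ⟨k', hk'⟩ := H.B_nondeg _ hne
  apply hk'
  rw [H.B_nsmul_right]
  simp

end algebra


/-! ### Characters of `ZMod p` -/

section character

omit [Fintype D] in
/-- A non-trivial additive character of `ZMod p` (`p` prime) is `1` only at `0`. -/
theorem psi_eq_one_iff (hψ : ψ ≠ 1) (a : ZMod p) : ψ a = 1 ↔ a = 0 := by
  constructor
  · intro ha
    by_contra hne
    apply hψ
    ext x
    have hx : x = (x * a⁻¹).val • a := by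
      rw [nsmul_eq_mul, ZMod.natCast_zmod_val]
      field_simp
    rw [hx, AddChar.map_nsmul_eq_pow, ha, one_pow, AddChar.one_apply]
  · rintro rfl
    exact AddChar.map_zero_eq_one ψ

omit [Fintype D] in
theorem sum_psi_mul (hψ : ψ ≠ 1) {u : ZMod p} (hu : u ≠ 0) : ∑ a : ZMod p, ψ (u * a) = 0 := by
  have h := AddChar.sum_eq_zero_of_ne_one hψ
  rw [← h]
  exact Fintype.sum_equiv (Equiv.mulLeft₀ u hu) _ _ (fun a => rfl)

end character

section orthogonality

variable (H : IsThetaSystem p ψ Q B Θ)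
include H

/-- Orthogonality relation for the bicharacter `ψ ∘ B`, trivial case. -/
theorem sum_psi_B_zero : ∑ k, ψ (B k 0) = (p : ℂ) ^ 2 := by
  simp only [H.B_zero_right, AddChar.map_zero_eq_one, Finset.sum_const, Finset.card_univ,
    H.card_eq, nsmul_eq_mul, mul_one]
  push_cast
  ring

/-- Orthogonality relation for the bicharacter `ψ ∘ B`, non-trivial case. -/
theorem sum_psi_B_ne {j : D} (hj : j ≠ 0) : ∑ k, ψ (B k j) = 0 := by
  let χ : AddChar D ℂ :=
    { toFun := fun k => ψ (B k j)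
      map_zero_eq_one' := by rw [H.B_zero_left, AddChar.map_zero_eq_one]
      map_add_eq_mul' := fun a b => by rw [H.B_add_left, AddChar.map_add_eq_mul] }
  have hχ : χ ≠ 1 := by
    obtain ⟨k, hk⟩ := H.B_nondeg j hj
    intro h1
    have : χ k = 1 := by rw [h1, AddChar.one_apply]
    exact hk ((psi_eq_one_iff H.psi_ne_one _).mp this)
  exact AddChar.sum_eq_zero_of_ne_one hχ

end orthogonality

/-! ### Gauss sums -/

/-- The Gauss sum of the quadratic function `Q`. -/
def gauss (ψ : AddChar (ZMod p) ℂ) (Q : D → ZMod p) (u : ZMod p) : ℂ := ∑ k, ψ (u * Q k)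

section gauss

variable (H : IsThetaSystem p ψ Q B Θ)
include H

/-- Completing the square in the twisted Gauss sum. -/
theorem sum_psi_Q_add_B {u : ZMod p} (hu : u ≠ 0) (j : D) :
    ∑ k, ψ (u * Q k + B k j) = ψ (-(u⁻¹ * Q j)) * gauss ψ Q u := by
  have h1 : ∀ k, ψ (u * Q k + B k j) = ψ (-(u⁻¹ * Q j)) * ψ (u * Q (k + (u⁻¹).val • j)) := by
    intro k
    rw [H.complete_square hu, ← AddChar.map_add_eq_mul]
    congr 1
    ring
  simp_rw [h1, ← Finset.mul_sum]
  congr 1
  exact Fintype.sum_equiv (Equiv.addRight ((u⁻¹).val • j)) _ _ (fun k => rfl)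

end gauss


/-! ### The formal action on coefficient vectors -/

/-- Linear combination of the theta functions with coefficient vector `v`. -/
def ev (Θ : D → ℍ → ℂ) (v : D → ℂ) : ℍ → ℂ := ∑ k, v k • Θ k

/-- The function `-(1/p) ∑ k, ψ (u * Q k) • Θ k`. -/
def W (ψ : AddChar (ZMod p) ℂ) (Q : D → ZMod p) (Θ : D → ℍ → ℂ) (c : ℂ) (u : ZMod p) : ℍ → ℂ :=
  ev Θ (fun k => c * ψ (u * Q k))

section action

variable (H : IsThetaSystem p ψ Q B Θ)
include H

theorem ev_slash_T (v : D → ℂ) :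
    ev Θ v ∣[(2 : ℤ)] ModularGroup.T = ev Θ (fun k => ψ (Q k) * v k) := by
  unfold ev
  rw [SlashAction.sum_slash]
  refine Finset.sum_congr rfl fun k _ => ?_
  rw [SL_smul_slash, H.slash_T, smul_smul, mul_comm]

theorem ev_slash_S (v : D → ℂ) :
    ev Θ v ∣[(2 : ℤ)] ModularGroup.S =
      ev Θ (fun j => -(p : ℂ)⁻¹ * ∑ k, v k * ψ (B k j)) := by
  unfold ev
  rw [SlashAction.sum_slash]
  have h1 : ∀ k, (v k • Θ k) ∣[(2 : ℤ)] ModularGroup.S =
      ∑ j, (-(p : ℂ)⁻¹ * (v k * ψ (B k j))) • Θ j := by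
    intro k
    rw [SL_smul_slash, H.slash_S, Finset.smul_sum, Finset.smul_sum]
    refine Finset.sum_congr rfl fun j _ => ?_
    rw [smul_smul, smul_smul]
    congr 1
    ring
  simp_rw [h1]
  rw [Finset.sum_comm]
  refine Finset.sum_congr rfl fun j _ => ?_
  rw [← Finset.sum_smul, Finset.mul_sum]

theorem theta_zero_slash_T : Θ 0 ∣[(2 : ℤ)] ModularGroup.T = Θ 0 := by
  rw [H.slash_T, H.Q_zero, AddChar.map_zero_eq_one, one_smul]

theorem theta_zero_slash_S : Θ 0 ∣[(2 : ℤ)] ModularGroup.S = W ψ Q Θ (-(p : ℂ)⁻¹) 0 := by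
  rw [H.slash_S]
  unfold W ev
  rw [Finset.smul_sum]
  refine Finset.sum_congr rfl fun k _ => ?_
  rw [H.B_zero_left, smul_smul]
  simp only [zero_mul]

theorem W_slash_T (c : ℂ) (u : ZMod p) :
    W ψ Q Θ c u ∣[(2 : ℤ)] ModularGroup.T = W ψ Q Θ c (u + 1) := by
  unfold W
  rw [H.ev_slash_T]
  congr 1
  funext k
  rw [add_mul, one_mul, AddChar.map_add_eq_mul]
  ring

theorem W_zero_slash_S (c : ℂ) :
    W ψ Q Θ c 0 ∣[(2 : ℤ)] ModularGroup.S = (-(p : ℂ) * c) • Θ 0 := by
  unfold W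
  rw [H.ev_slash_S]
  unfold ev
  have hp0 : (p : ℂ) ≠ 0 := Nat.cast_ne_zero.mpr (Fact.out : p.Prime).ne_zero
  rw [Finset.sum_eq_single (0 : D)]
  · simp only [zero_mul, AddChar.map_zero_eq_one, mul_one]
    rw [← Finset.mul_sum, H.sum_psi_B_zero]
    congr 1
    field_simp
  · intro j _ hj
    simp only [zero_mul, AddChar.map_zero_eq_one, mul_one]
    rw [← Finset.mul_sum, H.sum_psi_B_ne hj, mul_zero, mul_zero, zero_smul]
  · intro h
    exact absurd (Finset.mem_univ _) h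

theorem W_slash_S (c : ℂ) {u : ZMod p} (hu : u ≠ 0) :
    W ψ Q Θ c u ∣[(2 : ℤ)] ModularGroup.S =
      W ψ Q Θ (-(p : ℂ)⁻¹ * c * gauss ψ Q u) (-u⁻¹) := by
  unfold W
  rw [H.ev_slash_S]
  congr 1
  funext j
  have h1 : ∀ k, c * ψ (u * Q k) * ψ (B k j) = c * ψ (u * Q k + B k j) := by
    intro k
    rw [AddChar.map_add_eq_mul]
    ring
  simp_rw [h1]
  rw [← Finset.mul_sum, H.sum_psi_Q_add_B hu]
  have : -(u⁻¹ * Q j) = -u⁻¹ * Q j := by ring
  rw [this]
  ring

end action

/-! ### The Gauss sum is `-p` -/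

section gaussValue

variable (H : IsThetaSystem p ψ Q B Θ)
include H

theorem slash_STSTST :
    Θ 0 ∣[(2 : ℤ)] (ModularGroup.S * ModularGroup.T * ModularGroup.S * ModularGroup.T *
      ModularGroup.S * ModularGroup.T) = (-(p : ℂ)⁻¹ * gauss ψ Q 1) • Θ 0 := by
  have hp0 : (p : ℂ) ≠ 0 := Nat.cast_ne_zero.mpr (Fact.out : p.Prime).ne_zero
  simp only [SlashAction.slash_mul]
  rw [H.theta_zero_slash_S, H.W_slash_T, zero_add, H.W_slash_S _ one_ne_zero, H.W_slash_T]
  have h0 : -(1 : ZMod p)⁻¹ + 1 = 0 := by simp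
  rw [h0, H.W_zero_slash_S, SL_smul_slash, H.theta_zero_slash_T]
  congr 1
  field_simp

theorem gauss_one : gauss ψ Q 1 = -(p : ℂ) := by
  have hp0 : (p : ℂ) ≠ 0 := Nat.cast_ne_zero.mpr (Fact.out : p.Prime).ne_zero
  have hrel : ModularGroup.S * ModularGroup.T * ModularGroup.S * ModularGroup.T *
      ModularGroup.S * ModularGroup.T = (-1 : SL(2, ℤ)) := by
    ext i j
    simp only [Matrix.SpecialLinearGroup.coe_mul, ModularGroup.coe_S, ModularGroup.coe_T,
      Matrix.mul_fin_two, Matrix.SpecialLinearGroup.coe_neg, Matrix.SpecialLinearGroup.coe_one]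
    fin_cases i <;> fin_cases j <;> simp
  have h1 := H.slash_STSTST
  rw [hrel] at h1
  have hneg : Θ 0 ∣[(2 : ℤ)] (-1 : SL(2, ℤ)) = Θ 0 := by
    funext τ
    rw [SL_slash_apply]
    simp [denom]
  rw [hneg] at h1
  obtain ⟨τ, hτ⟩ : ∃ τ, Θ 0 τ ≠ 0 := by
    by_contra hcon
    exact H.theta_zero_ne (funext fun τ => by_contra fun hτ => hcon ⟨τ, hτ⟩)
  have h2 := congrFun h1 τ
  simp only [Pi.smul_apply, smul_eq_mul] at h2
  have h3 : -(p : ℂ)⁻¹ * gauss ψ Q 1 = 1 := by
    have : (1 - (-(p : ℂ)⁻¹ * gauss ψ Q 1)) * Θ 0 τ = 0 := by linear_combination h2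
    rcases mul_eq_zero.mp this with h | h
    · linear_combination -h
    · exact absurd h hτ
  field_simp at h3
  linear_combination -h3

end gaussValue


/-! ### All Gauss sums are `-p` (cyclotomic argument) -/

section gaussAll

omit [Fintype D] in
theorem isPrimitiveRoot_psi (hψ : ψ ≠ 1) {u : ZMod p} (hu : u ≠ 0) :
    IsPrimitiveRoot (ψ u) p := by
  have hp : p.Prime := Fact.out
  refine isPrimitiveRoot_of_mem_nthRootsFinset hp ?_ ?_
  · rw [Polynomial.mem_nthRootsFinset hp.pos]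
    rw [← AddChar.map_nsmul_eq_pow]
    simp
  · intro h
    exact hu ((psi_eq_one_iff hψ u).mp h)

/-- The number of `k` with `Q k = a`. -/
def fiberCount (Q : D → ZMod p) (a : ZMod p) : ℕ :=
  Finset.card (Finset.univ.filter fun k => Q k = a)

omit [AddCommGroup D] in
theorem gauss_eq_sum_fiber (ψ : AddChar (ZMod p) ℂ) (Q : D → ZMod p) (u : ZMod p) :
    gauss ψ Q u = ∑ a : ZMod p, (fiberCount Q a : ℂ) * ψ (u * a) := by
  classical
  unfold gauss fiberCount
  rw [← Finset.sum_fiberwise Finset.univ Q]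
  refine Finset.sum_congr rfl fun a _ => ?_
  rw [Finset.sum_congr rfl (fun k hk => by rw [(Finset.mem_filter.mp hk).2]),
    Finset.sum_const, nsmul_eq_mul]

/-- The auxiliary polynomial `∑ a, N_a X^a + p`. -/
def gaussPoly (Q : D → ZMod p) : Polynomial ℚ :=
  ∑ a : ZMod p, Polynomial.C (fiberCount Q a : ℚ) * Polynomial.X ^ a.val + Polynomial.C (p : ℚ)

omit [AddCommGroup D] in
theorem aeval_gaussPoly (ψ : AddChar (ZMod p) ℂ) (Q : D → ZMod p) (u : ZMod p) :
    Polynomial.aeval (ψ u) (gaussPoly Q) = gauss ψ Q u + p := by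
  unfold gaussPoly
  rw [gauss_eq_sum_fiber]
  simp only [map_add, map_sum, map_mul, map_pow, Polynomial.aeval_C, Polynomial.aeval_X,
    eq_ratCast, Rat.cast_natCast]
  congr 1
  refine Finset.sum_congr rfl fun a _ => ?_
  rw [← AddChar.map_nsmul_eq_pow, nsmul_eq_mul, ZMod.natCast_zmod_val, mul_comm a u]

variable (H : IsThetaSystem p ψ Q B Θ)
include H

/-- All non-trivial Gauss sums of `Q` are equal to `-p`. -/
theorem gauss_eq {u : ZMod p} (hu : u ≠ 0) : gauss ψ Q u = -(p : ℂ) := by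
  have hp : p.Prime := Fact.out
  have h1 : Polynomial.aeval (ψ 1) (gaussPoly Q) = 0 := by
    rw [aeval_gaussPoly, H.gauss_one]; ring
  have hζ1 := isPrimitiveRoot_psi H.psi_ne_one (one_ne_zero : (1 : ZMod p) ≠ 0)
  have hζu := isPrimitiveRoot_psi H.psi_ne_one hu
  have hdvd : Polynomial.cyclotomic p ℚ ∣ gaussPoly Q := by
    rw [Polynomial.cyclotomic_eq_minpoly_rat hζ1 hp.pos]
    exact minpoly.dvd ℚ (ψ 1) h1
  obtain ⟨R, hR⟩ := hdvd
  have h2 : Polynomial.aeval (ψ u) (gaussPoly Q) = 0 := by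
    rw [hR, map_mul]
    have : Polynomial.aeval (ψ u) (Polynomial.cyclotomic p ℚ) = 0 := by
      have hroot := hζu.isRoot_cyclotomic hp.pos
      rw [Polynomial.IsRoot.def] at hroot
      rw [Polynomial.aeval_def, Polynomial.eval₂_eq_eval_map, Polynomial.map_cyclotomic]
      exact hroot
    rw [this, zero_mul]
  rw [aeval_gaussPoly] at h2
  linear_combination h2

end gaussAll


/-! ### Translates of `Θ 0` under `SL(2,ℤ)` -/

/-- The expected translate of `Θ 0` under `γ`. -/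
def translate (ψ : AddChar (ZMod p) ℂ) (Q : D → ZMod p) (Θ : D → ℍ → ℂ) (γ : SL(2, ℤ)) :
    ℍ → ℂ :=
  if ((γ 1 0 : ℤ) : ZMod p) = 0 then Θ 0
  else W ψ Q Θ (-(p : ℂ)⁻¹) (((γ 1 1 : ℤ) : ZMod p) / ((γ 1 0 : ℤ) : ZMod p))

section entries

theorem mul_T_10 (γ : SL(2, ℤ)) : (γ * ModularGroup.T) 1 0 = γ 1 0 := by
  simp [Matrix.SpecialLinearGroup.coe_mul, ModularGroup.coe_T, Matrix.mul_apply,
    Fin.sum_univ_two]

theorem mul_T_11 (γ : SL(2, ℤ)) : (γ * ModularGroup.T) 1 1 = γ 1 0 + γ 1 1 := by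
  simp [Matrix.SpecialLinearGroup.coe_mul, ModularGroup.coe_T, Matrix.mul_apply,
    Fin.sum_univ_two]

theorem mul_T_inv_10 (γ : SL(2, ℤ)) : (γ * ModularGroup.T⁻¹) 1 0 = γ 1 0 := by
  simp [Matrix.SpecialLinearGroup.coe_mul, Matrix.mul_apply, Fin.sum_univ_two]

theorem mul_T_inv_11 (γ : SL(2, ℤ)) : (γ * ModularGroup.T⁻¹) 1 1 = γ 1 1 - γ 1 0 := by
  simp [Matrix.SpecialLinearGroup.coe_mul, Matrix.mul_apply, Fin.sum_univ_two]
  ring

theorem mul_S_10 (γ : SL(2, ℤ)) : (γ * ModularGroup.S) 1 0 = γ 1 1 := by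
  simp [Matrix.SpecialLinearGroup.coe_mul, ModularGroup.coe_S, Matrix.mul_apply,
    Fin.sum_univ_two]

theorem mul_S_11 (γ : SL(2, ℤ)) : (γ * ModularGroup.S) 1 1 = -γ 1 0 := by
  simp [Matrix.SpecialLinearGroup.coe_mul, ModularGroup.coe_S, Matrix.mul_apply,
    Fin.sum_univ_two]

theorem det_cast (p : ℕ) (γ : SL(2, ℤ)) :
    ((γ 0 0 : ℤ) : ZMod p) * ((γ 1 1 : ℤ) : ZMod p) -
      ((γ 0 1 : ℤ) : ZMod p) * ((γ 1 0 : ℤ) : ZMod p) = 1 := by
  have h := γ.det_coe
  rw [Matrix.det_fin_two] at h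
  have := congrArg (fun x : ℤ => (x : ZMod p)) h
  simpa using this

theorem cast_11_ne_zero {γ : SL(2, ℤ)} (h : ((γ 1 0 : ℤ) : ZMod p) = 0) :
    ((γ 1 1 : ℤ) : ZMod p) ≠ 0 := by
  intro h'
  have := det_cast p γ
  rw [h, h', mul_zero, mul_zero, sub_zero] at this
  exact zero_ne_one this

end entries

section invariance

variable (H : IsThetaSystem p ψ Q B Θ)
include H

theorem W0_zero_slash_S :
    W ψ Q Θ (-(p : ℂ)⁻¹) 0 ∣[(2 : ℤ)] ModularGroup.S = Θ 0 := by
  have hp0 : (p : ℂ) ≠ 0 := Nat.cast_ne_zero.mpr (Fact.out : p.Prime).ne_zero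
  rw [H.W_zero_slash_S]
  have : -(p : ℂ) * -(p : ℂ)⁻¹ = 1 := by field_simp
  rw [this, one_smul]

theorem W0_slash_S {u : ZMod p} (hu : u ≠ 0) :
    W ψ Q Θ (-(p : ℂ)⁻¹) u ∣[(2 : ℤ)] ModularGroup.S = W ψ Q Θ (-(p : ℂ)⁻¹) (-u⁻¹) := by
  have hp0 : (p : ℂ) ≠ 0 := Nat.cast_ne_zero.mpr (Fact.out : p.Prime).ne_zero
  rw [H.W_slash_S _ hu, H.gauss_eq hu]
  congr 1
  field_simp

theorem W_slash_T_inv (c : ℂ) (u : ZMod p) :
    W ψ Q Θ c u ∣[(2 : ℤ)] ModularGroup.T⁻¹ = W ψ Q Θ c (u - 1) := by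
  have h := H.W_slash_T c (u - 1)
  rw [sub_add_cancel] at h
  rw [← h, ← SlashAction.slash_mul, mul_inv_cancel, SlashAction.slash_one]

theorem theta_zero_slash_T_inv : Θ 0 ∣[(2 : ℤ)] ModularGroup.T⁻¹ = Θ 0 := by
  have h := H.theta_zero_slash_T
  conv_lhs => rw [← h]
  rw [← SlashAction.slash_mul, mul_inv_cancel, SlashAction.slash_one]

theorem translate_mul_T (γ : SL(2, ℤ)) :
    translate ψ Q Θ γ ∣[(2 : ℤ)] ModularGroup.T = translate ψ Q Θ (γ * ModularGroup.T) := by
  unfold translate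
  rw [mul_T_10, mul_T_11]
  split_ifs with hc
  · exact H.theta_zero_slash_T
  · rw [H.W_slash_T]
    congr 1
    push_cast
    field_simp
    ring

theorem translate_mul_T_inv (γ : SL(2, ℤ)) :
    translate ψ Q Θ γ ∣[(2 : ℤ)] ModularGroup.T⁻¹ =
      translate ψ Q Θ (γ * ModularGroup.T⁻¹) := by
  unfold translate
  rw [mul_T_inv_10, mul_T_inv_11]
  split_ifs with hc
  · exact H.theta_zero_slash_T_inv
  · rw [H.W_slash_T_inv]
    congr 1
    push_cast
    field_simp

theorem translate_mul_S (γ : SL(2, ℤ)) :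
    translate ψ Q Θ γ ∣[(2 : ℤ)] ModularGroup.S = translate ψ Q Θ (γ * ModularGroup.S) := by
  unfold translate
  rw [mul_S_10, mul_S_11]
  by_cases hc : ((γ 1 0 : ℤ) : ZMod p) = 0
  · have hd := cast_11_ne_zero hc
    rw [if_pos hc, if_neg hd, H.theta_zero_slash_S]
    congr 1
    push_cast
    rw [hc, neg_zero, zero_div]
  · rw [if_neg hc]
    by_cases hd : ((γ 1 1 : ℤ) : ZMod p) = 0
    · rw [if_pos hd, hd, zero_div, H.W0_zero_slash_S]
    · rw [if_neg hd, H.W0_slash_S (div_ne_zero hd hc)]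
      congr 1
      push_cast
      field_simp

/-- The translate of `Θ 0` under any `γ ∈ SL(2,ℤ)`. -/
theorem slash_eq_translate (γ : SL(2, ℤ)) : Θ 0 ∣[(2 : ℤ)] γ = translate ψ Q Θ γ := by
  have hγ : γ ∈ Subgroup.closure ({ModularGroup.S, ModularGroup.T} : Set SL(2, ℤ)) := by
    rw [_root_.SpecialLinearGroup.SL2Z_generators]
    exact Subgroup.mem_top _
  induction hγ using Subgroup.closure_induction_right with
  | one =>
    rw [SlashAction.slash_one]
    unfold translate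
    rw [if_pos (by simp)]
  | mul_right x hx y hy ih =>
    rw [SlashAction.slash_mul, ih]
    rcases hy with rfl | rfl
    · exact H.translate_mul_S x
    · exact H.translate_mul_T x
  | mul_inv_cancel x hx y hy ih =>
    rw [SlashAction.slash_mul, ih]
    rcases hy with rfl | rfl
    · have hS : (ModularGroup.S)⁻¹ = ModularGroup.S * ModularGroup.S * ModularGroup.S := by
        rw [inv_eq_iff_mul_eq_one]
        ext i j
        simp only [Matrix.SpecialLinearGroup.coe_mul, ModularGroup.coe_S, Matrix.mul_fin_two,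
          Matrix.SpecialLinearGroup.coe_one]
        fin_cases i <;> fin_cases j <;> simp
      rw [hS, SlashAction.slash_mul, SlashAction.slash_mul, H.translate_mul_S,
        H.translate_mul_S, H.translate_mul_S]
      simp only [mul_assoc]
    · exact H.translate_mul_T_inv x

/-- `Θ 0` is invariant under `Γ₀(p)`. -/
theorem slash_eq_self {γ : SL(2, ℤ)} (hγ : γ ∈ CongruenceSubgroup.Gamma0 p) :
    Θ 0 ∣[(2 : ℤ)] γ = Θ 0 := by
  rw [H.slash_eq_translate]
  unfold translate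
  rw [if_pos (CongruenceSubgroup.Gamma0_mem.mp hγ)]

end invariance


/-! ### Packaging as a modular form -/

section packaging

omit [AddCommGroup D] in
theorem isBoundedAtImInfty_ev {Θ : D → ℍ → ℂ} (bdd : ∀ k, IsBoundedAtImInfty (Θ k))
    (v : D → ℂ) : IsBoundedAtImInfty (ev Θ v) := by
  classical
  unfold ev
  have : ∀ s : Finset D, IsBoundedAtImInfty (∑ k ∈ s, v k • Θ k) := by
    intro s
    induction s using Finset.induction_on with
    | empty =>
      simp only [Finset.sum_empty]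
      exact Filter.const_boundedAtFilter _ (0 : ℂ)
    | insert a s ha ih =>
      rw [Finset.sum_insert ha]
      exact Filter.BoundedAtFilter.add ((bdd a).smul (v a)) ih
  exact this Finset.univ

omit [AddCommGroup D] in
theorem mdifferentiable_ev {Θ : D → ℍ → ℂ} (hol : ∀ k, MDiff (Θ k)) (v : D → ℂ) :
    MDiff (ev Θ v) := by
  classical
  unfold ev
  have : ∀ s : Finset D, MDiff (∑ k ∈ s, v k • Θ k) := by
    intro s
    induction s using Finset.induction_on with
    | empty =>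
      simp only [Finset.sum_empty]
      exact mdifferentiable_const
    | insert a s ha ih =>
      rw [Finset.sum_insert ha]
      exact ((hol a).const_smul (v a)).add ih
  exact this Finset.univ

variable (H : IsThetaSystem p ψ Q B Θ)
include H

theorem isBoundedAtImInfty_translate (bdd : ∀ k, IsBoundedAtImInfty (Θ k)) (γ : SL(2, ℤ)) :
    IsBoundedAtImInfty (Θ 0 ∣[(2 : ℤ)] γ) := by
  rw [H.slash_eq_translate]
  unfold translate
  split_ifs
  · exact bdd 0
  · exact isBoundedAtImInfty_ev bdd _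

/-- `Θ 0` as a modular form of weight `2` on `Γ₀(p)`. -/
def toModularForm (hol : ∀ k, MDiff (Θ k)) (bdd : ∀ k, IsBoundedAtImInfty (Θ k)) :
    ModularForm ((CongruenceSubgroup.Gamma0 p : Subgroup SL(2, ℤ)) : Subgroup (GL (Fin 2) ℝ)) 2
    where
  toFun := Θ 0
  slash_action_eq' := by
    rintro _ ⟨γ, hγ, rfl⟩
    exact (SL_slash (f := Θ 0) (k := 2) γ).symm.trans (H.slash_eq_self hγ)
  holo' := hol 0
  bdd_at_cusps' {c} hc := by
    have : NeZero p := ⟨(Fact.out : p.Prime).ne_zero⟩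
    rw [Subgroup.IsArithmetic.isCusp_iff_isCusp_SL2Z] at hc
    rw [OnePoint.isBoundedAt_iff_forall_SL2Z hc]
    intro γ _
    exact H.isBoundedAtImInfty_translate bdd γ

@[simp]
theorem coe_toModularForm (hol : ∀ k, MDiff (Θ k)) (bdd : ∀ k, IsBoundedAtImInfty (Θ k)) :
    ⇑(H.toModularForm hol bdd) = Θ 0 := rfl

end packaging

end IsThetaSystem

end

end Fermat.Agent.S16.H487
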